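import Fermat.Statements.S06
import Fermat.Agent.Top.Discharged
-- import your own Fermat.Agent.* helpers here

set_option autoImplicit false
open WeierstrassCurve WeierstrassCurve.Affine WeierstrassCurve.Affine.Point
open CuspForm ModularFormClass UpperHalfPlane
open FreyPackage

namespace Fermat.Agent.S06

theorem result (P : FreyPackage) : ∃ N : ℕ, P.IsConductorLevel N ∧ P.ModularRepOfLevel N := by
  exact Fermat.Agent.Top.exists_conductorLevel_of_lifting Fermat.Agent.Top.liftingSquarefreeInput P

end Fermat.Agent.S06
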