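import Fermat.Statements.S09
import Fermat.Agent.Mazur.Eisenstein.Final
import Fermat.Agent.Mazur.Eisenstein.OrderProof
import Fermat.Agent.Mazur.Large.Assembly

set_option autoImplicit false
open WeierstrassCurve WeierstrassCurve.Affine WeierstrassCurve.Affine.Point
open CuspForm ModularFormClass UpperHalfPlane
open FreyPackage

namespace Fermat.Agent.S09

theorem result (P : FreyPackage) : GaloisRepIsIrreducible (K := AlgebraicClosure ℚ) ℚ P.freyCurve P.p := by
  exact Fermat.Agent.Mazur.Large.galoisRepIsIrreducible_frey
    (Fermat.Agent.Mazur.Eisenstein.threePlaceLemma_of_inputs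
      fun p _ _ _ => Fermat.Agent.Mazur.Eisenstein.orderProperty p) P

end Fermat.Agent.S09
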