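import Fermat.Statements.S34
import Fermat.Agent.GaloisReps.Unramified
import Fermat.Agent.GaloisReps.Models
import Fermat.Agent.Semistable.Unipotent.Main

set_option autoImplicit false
set_option autoImplicit false
open IsLocalRing
open CuspForm CuspForm.HeckeGaloisRepDatum

namespace Fermat.Agent.S34

theorem result
    {𝒪 : Type} [CommRing 𝒪] [IsDomain 𝒪] [IsDiscreteValuationRing 𝒪]
    [IsAdicComplete (maximalIdeal 𝒪) 𝒪] [Finite (ResidueField 𝒪)] [CharZero 𝒪]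
    {p : ℕ} (hp : p.Prime) (hp𝒪 : (p : 𝒪) ∈ maximalIdeal 𝒪)
    {N : ℕ} [NeZero N] {S : Finset ℕ} (hpS : p ∈ S) (hNS : ∀ q : ℕ, q.Prime → q ∣ N → q ∈ S)
    {θ : CuspForm.heckeAlgebra N 2 (↑S : Set ℕ) →+* ResidueField 𝒪}
    {T : Type} [CommRing T] [IsLocalRing T] [IsNoetherianRing T]
    [IsAdicComplete (maximalIdeal T) T] [Algebra 𝒪 T] [IsLocalHom (algebraMap 𝒪 T)]
    [Module.Finite 𝒪 T] [Module.Free 𝒪 T]
    (H : CuspForm.HeckeGaloisRepDatum N (↑S : Set ℕ) 𝒪 θ T)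
    (q : ℕ) (hq : q.Prime) (hqp : q ≠ p) (hqN : q ∣ N) (hq2 : ¬ q ^ 2 ∣ N) :
    H.ρ.IsUnipotentOnInertiaAt q := by
  intro P hP σ hσ
  haveI := Fact.mk hp
  exact Fermat.Agent.GaloisReps.charpoly_eq_of_model
    (Fermat.Agent.GaloisReps.modelOfCongruence (Fermat.Agent.GaloisReps.congruenceProperty N p)) hp𝒪 H σ
    (fun n ζ hζ => Fermat.Agent.Arith.inertia_root hP hq hσ hζ fun h =>
      hqp ((Nat.prime_dvd_prime_iff_eq hq hp).mp (hq.dvd_of_dvd_pow h)))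
    (Fermat.Agent.GaloisReps.unipotentAt_modelOfCongruence
      (Fermat.Agent.GaloisReps.congruenceProperty N p) hq hqp
      (Fermat.Agent.Semistable.Unipotent.torsionUnipotentAt hq hqN hq2) P hP σ hσ)

end Fermat.Agent.S34
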